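/-
GATE-F / S40, node GF-T-ADAPTED, part 1 (helper5): **the eigenfunction `η` of translation by a point
`w0` of order `p`, as an explicit function on points** (helper13 board 5388 (a), in the function
language of helper17's `GF/Interp/Uniform.FinPoly`).

`A` a commutative ring in which `p` is a non-zero-divisor, `ζ ∈ A` with `ζ ^ p = 1` and
`1 + ζ + ⋯ + ζ^(p-1) = 0`, `P` ANY commutative group ("points"), `w0 ∈ P` with `p • w0 = 0`.

* `charAlg ζ` : the `A`-algebra of functions `ℕ → A` generated by the character `χ : i ↦ ζ ^ i`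
  (the `μ_p`-order `A[χ]`), `mem_charAlg_iff` : its elements are the `i ↦ Q(ζ^i)`, `Q ∈ A[X]`;
* `sum_range_pow_mul` : `∑_{i<p} ζ^(i m) = p` if `p ∣ m`, `0` otherwise;
* `exists_coef` : for `h ∈ charAlg ζ` and every `j`, `∑_{i<p} ζ^(i (p-1) j) h i ∈ p A`
  (integrality of the Fourier coefficients on the order `A[χ]`);
* `coef`, `fourier_inversion` : `h i = ∑_{j<p} ζ^(i j) coef j h` for all `i` (periodic `h`);
* `eta` : for `ξ : P → A` whose orbit functions `i ↦ ξ (y + i • w0)` lie in `charAlg ζ`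
  (this is (ORD) + polynomiality of the group law on finite sets) the function
  `η y = (1/p) ∑_i ζ^(-i) ξ (y + i • w0)` takes values in `A`, `η (y + w0) = ζ η y`, and `η 0 = 1`
  as soon as `ξ (i • w0) = ζ ^ i`;
* `eta_eq_sum` : `η y = ∑_k c_k b_k` whenever `ξ (y + i • w0) = ∑_k c_k m_k i` with `m_k ∈ charAlg ζ`,
  the `b_k = coef 1 (m_k)` depending on the `m_k` only (so `η` is again polynomial in the coordinates on
  every finite set of points).

Mathlib only; no topology, no completion: `η y` is an element of `A`.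
-/
import Mathlib

set_option autoImplicit false

namespace Fermat.Agent.GF.T.Eta

open Finset Polynomial

variable {A : Type*} [CommRing A]

/-! ### the character sums -/

section Sums

variable {p : ℕ} (ζ : A)

theorem pow_mod_of_pow_eq_one (hζp : ζ ^ p = 1) (n : ℕ) : ζ ^ n = ζ ^ (n % p) := by
  conv_lhs => rw [← Nat.div_add_mod n p, pow_add, pow_mul, hζp, one_pow, one_mul]

/-- multiplication by `m` prime to `p` is injective on the residues. -/
theorem injOn_mul_mod (hp : p.Prime) {m : ℕ} (hm : ¬ p ∣ m) :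
    Set.InjOn (fun i => i * m % p) (range p : Set ℕ) := by
  have hcop : Nat.Coprime p m := (Nat.Prime.coprime_iff_not_dvd hp).mpr hm
  intro i hi j hj hij
  rw [Finset.coe_range, Set.mem_Iio] at hi hj
  have h1 : i * m ≡ j * m [MOD p] := hij
  have h2 : i ≡ j [MOD p] := Nat.ModEq.cancel_right_of_coprime hcop h1
  have h3 : i % p = j % p := h2
  rwa [Nat.mod_eq_of_lt hi, Nat.mod_eq_of_lt hj] at h3

/-- multiplication by `m` prime to `p` permutes the residues. -/
theorem image_mul_mod (hp : p.Prime) {m : ℕ} (hm : ¬ p ∣ m) :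
    (range p).image (fun i => i * m % p) = range p := by
  apply Finset.eq_of_subset_of_card_le
  · intro x hx
    obtain ⟨i, -, rfl⟩ := Finset.mem_image.mp hx
    exact Finset.mem_range.mpr (Nat.mod_lt _ hp.pos)
  · rw [Finset.card_image_of_injOn (injOn_mul_mod hp hm)]

theorem sum_range_pow_mul (hp : p.Prime) (hζp : ζ ^ p = 1) (hΦ : ∑ i ∈ range p, ζ ^ i = 0)
    (m : ℕ) : ∑ i ∈ range p, ζ ^ (i * m) = if p ∣ m then (p : A) else 0 := by
  split_ifs with h
  · obtain ⟨k, rfl⟩ := h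
    have : ∀ i ∈ range p, ζ ^ (i * (p * k)) = 1 := fun i _ => by
      rw [mul_comm p k, ← mul_assoc, pow_mul', hζp, one_pow]
    rw [Finset.sum_congr rfl this, Finset.sum_const, Finset.card_range, nsmul_eq_mul, mul_one]
  · calc ∑ i ∈ range p, ζ ^ (i * m) = ∑ i ∈ range p, ζ ^ (i * m % p) :=
          Finset.sum_congr rfl fun i _ => pow_mod_of_pow_eq_one ζ hζp _
      _ = ∑ x ∈ (range p).image (fun i => i * m % p), ζ ^ x :=
          (Finset.sum_image (f := fun x => ζ ^ x) (injOn_mul_mod hp h)).symm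
      _ = ∑ x ∈ range p, ζ ^ x := by rw [image_mul_mod hp h]
      _ = 0 := hΦ

end Sums

/-! ### the order `A[χ]` and its Fourier coefficients -/

section Order

variable {p : ℕ} (ζ : A)

/-- the character `i ↦ ζ ^ i`. -/
def chi : ℕ → A := fun i => ζ ^ i

/-- the `A`-algebra of functions on `ℕ` generated by the character `χ` (the `μ_p`-order). -/
def charAlg : Subalgebra A (ℕ → A) := Algebra.adjoin A {chi ζ}

theorem chi_mem : chi ζ ∈ charAlg ζ := Algebra.subset_adjoin (Set.mem_singleton _)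

theorem aeval_chi_apply (Q : A[X]) (i : ℕ) : (aeval (chi ζ) Q) i = Q.eval (ζ ^ i) := by
  have h := Polynomial.aeval_algHom_apply (Pi.evalAlgHom A (fun _ : ℕ => A) i) (chi ζ) Q
  rw [Pi.evalAlgHom_apply, Pi.evalAlgHom_apply] at h
  rw [← h]
  rfl

theorem mem_charAlg_iff {h : ℕ → A} :
    h ∈ charAlg ζ ↔ ∃ Q : A[X], ∀ i, h i = Q.eval (ζ ^ i) := by
  rw [charAlg, Algebra.adjoin_singleton_eq_range_aeval, AlgHom.mem_range]
  constructor
  · rintro ⟨Q, rfl⟩
    exact ⟨Q, fun i => aeval_chi_apply ζ Q i⟩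
  · rintro ⟨Q, hQ⟩
    exact ⟨Q, funext fun i => (aeval_chi_apply ζ Q i).trans (hQ i).symm⟩

/-- elements of the order are `p`-periodic. -/
theorem periodic_of_mem (hζp : ζ ^ p = 1) {h : ℕ → A} (hh : h ∈ charAlg ζ) (i : ℕ) :
    h (i + p) = h i := by
  obtain ⟨Q, hQ⟩ := (mem_charAlg_iff ζ).mp hh
  rw [hQ, hQ, pow_add, hζp, mul_one]

/-- the Fourier sums of an element of the order are divisible by `p`. -/
theorem exists_coef (hp : p.Prime) (hζp : ζ ^ p = 1) (hΦ : ∑ i ∈ range p, ζ ^ i = 0) (e : ℕ)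
    {h : ℕ → A} (hh : h ∈ charAlg ζ) :
    ∃ b : A, ∑ i ∈ range p, ζ ^ (i * e) * h i = (p : A) * b := by
  obtain ⟨Q, hQ⟩ := (mem_charAlg_iff ζ).mp hh
  refine ⟨∑ k ∈ range (Q.natDegree + 1), if p ∣ e + k then Q.coeff k else 0, ?_⟩
  have h1 : ∀ i ∈ range p, ζ ^ (i * e) * h i =
      ∑ k ∈ range (Q.natDegree + 1), Q.coeff k * ζ ^ (i * (e + k)) := fun i _ => by
    rw [hQ, Polynomial.eval_eq_sum_range, Finset.mul_sum]
    refine Finset.sum_congr rfl fun k _ => ?_
    rw [← pow_mul, mul_add, pow_add]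
    ring
  rw [Finset.sum_congr rfl h1, Finset.sum_comm, Finset.mul_sum]
  refine Finset.sum_congr rfl fun k _ => ?_
  rw [← Finset.mul_sum, sum_range_pow_mul ζ hp hζp hΦ]
  split_ifs
  · exact mul_comm _ _
  · rw [mul_zero, mul_zero]

end Order

/-! ### the coefficient functionals -/

section Coef

variable {p : ℕ} (ζ : A)

open Classical in
/-- the `j`-th Fourier coefficient of a function in the order `A[χ]` (junk value `0` outside). -/
noncomputable def coef (p : ℕ) (j : ℕ) (h : ℕ → A) : A :=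
  if hb : ∃ b : A, ∑ i ∈ range p, ζ ^ (i * ((p - 1) * j)) * h i = (p : A) * b then hb.choose else 0

theorem coef_spec (hp : p.Prime) (hζp : ζ ^ p = 1) (hΦ : ∑ i ∈ range p, ζ ^ i = 0) (j : ℕ)
    {h : ℕ → A} (hh : h ∈ charAlg ζ) :
    (p : A) * coef ζ p j h = ∑ i ∈ range p, ζ ^ (i * ((p - 1) * j)) * h i := by
  have hb := exists_coef ζ hp hζp hΦ ((p - 1) * j) hh
  rw [coef, dif_pos hb]
  exact hb.choose_spec.symm

/-- **Fourier inversion on the order.** -/
theorem fourier_inversion (hp : p.Prime) (hζp : ζ ^ p = 1) (hΦ : ∑ i ∈ range p, ζ ^ i = 0)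
    (hpA : ∀ a : A, (p : A) * a = 0 → a = 0) {h : ℕ → A} (hh : h ∈ charAlg ζ) (i : ℕ)
    (hi : i < p) : h i = ∑ j ∈ range p, ζ ^ (i * j) * coef ζ p j h := by
  have hp1 : 1 ≤ p := hp.pos
  apply sub_eq_zero.mp
  apply hpA
  rw [mul_sub, Finset.mul_sum]
  have h1 : ∀ j ∈ range p, (p : A) * (ζ ^ (i * j) * coef ζ p j h) =
      ∑ k ∈ range p, ζ ^ (i * j + k * ((p - 1) * j)) * h k := fun j _ => by
    rw [mul_left_comm, coef_spec ζ hp hζp hΦ j hh, Finset.mul_sum]
    refine Finset.sum_congr rfl fun k _ => ?_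
    rw [pow_add]
    ring
  rw [Finset.sum_congr rfl h1, Finset.sum_comm]
  -- the inner sum over `j`
  have h2 : ∀ k ∈ range p, ∑ j ∈ range p, ζ ^ (i * j + k * ((p - 1) * j)) * h k =
      (if k = i then (p : A) else 0) * h k := fun k hk => by
    rw [← Finset.sum_mul]
    congr 1
    have h3 : ∀ j ∈ range p, ζ ^ (i * j + k * ((p - 1) * j)) = ζ ^ (j * (i + k * (p - 1))) :=
      fun j _ => by congr 1; ring
    rw [Finset.sum_congr rfl h3, sum_range_pow_mul ζ hp hζp hΦ]
    have hk' : k < p := Finset.mem_range.mp hk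
    have hiff : p ∣ i + k * (p - 1) ↔ k = i := by
      have e1 : i + k * (p - 1) + k = i + k * p := by
        have : k * (p - 1) + k = k * p := by
          rw [← Nat.mul_succ, Nat.succ_eq_add_one, Nat.sub_add_cancel hp1]
        omega
      constructor
      · intro hd
        have h5 : (i + k * p) % p = i % p := Nat.add_mul_mod_self_right _ _ _
        have h6 : (i + k * (p - 1) + k) % p = k % p := by
          rw [Nat.add_mod, Nat.mod_eq_zero_of_dvd hd, zero_add, Nat.mod_mod]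
        rw [e1, h5, Nat.mod_eq_of_lt hi, Nat.mod_eq_of_lt hk'] at h6
        exact h6.symm
      · rintro rfl
        refine ⟨k, ?_⟩
        have : k + k * (p - 1) = k * (p - 1 + 1) := by ring
        rw [this, Nat.sub_add_cancel hp1, mul_comm]
    simp only [hiff]
  rw [Finset.sum_congr rfl h2]
  rw [Finset.sum_eq_single i]
  · rw [if_pos rfl, sub_self]
  · intro k _ hki
    rw [if_neg hki, zero_mul]
  · intro hni
    exact absurd (Finset.mem_range.mpr hi) hni

end Coef

/-! ### the eigenfunction `η` -/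

section EtaSec

variable {p : ℕ} (ζ : A) {P : Type*} [AddCommGroup P] (w0 : P)

/-- the orbit function `i ↦ f (y + i • w0)`. -/
def orb (f : P → A) (y : P) : ℕ → A := fun i => f (y + i • w0)

/-- the `j`-th graded piece of `f` under translation by `w0`:
`(1/p) ∑_i ζ^(-i j) f (y + i • w0)`. -/
noncomputable def pr (p : ℕ) (j : ℕ) (f : P → A) : P → A := fun y => coef ζ p j (orb w0 f y)

variable {w0}

theorem pr_spec (hp : p.Prime) (hζp : ζ ^ p = 1) (hΦ : ∑ i ∈ range p, ζ ^ i = 0) (j : ℕ)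
    {f : P → A} (y : P) (hf : orb w0 f y ∈ charAlg ζ) :
    (p : A) * pr ζ w0 p j f y = ∑ i ∈ range p, ζ ^ (i * ((p - 1) * j)) * f (y + i • w0) :=
  coef_spec ζ hp hζp hΦ j hf

/-- **decomposition into graded pieces**: `f (y + i • w0) = ∑_j ζ^(i j) (pr_j f) y`. -/
theorem apply_add_nsmul (hp : p.Prime) (hζp : ζ ^ p = 1) (hΦ : ∑ i ∈ range p, ζ ^ i = 0)
    (hpA : ∀ a : A, (p : A) * a = 0 → a = 0) {f : P → A} (y : P)
    (hf : orb w0 f y ∈ charAlg ζ) (i : ℕ) (hi : i < p) :
    f (y + i • w0) = ∑ j ∈ range p, ζ ^ (i * j) * pr ζ w0 p j f y :=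
  fourier_inversion ζ hp hζp hΦ hpA hf i hi

omit [CommRing A] in
/-- the orbit function of `y + w0` is the shift of the orbit function of `y`. -/
theorem orb_add (f : P → A) (y : P) (i : ℕ) : orb w0 f (y + w0) i = orb w0 f y (i + 1) := by
  unfold orb
  rw [add_assoc, succ_nsmul']

/-- **the graded pieces are eigenfunctions of the translation by `w0`.** -/
theorem pr_add (hp : p.Prime) (hζp : ζ ^ p = 1) (hΦ : ∑ i ∈ range p, ζ ^ i = 0)
    (hpA : ∀ a : A, (p : A) * a = 0 → a = 0) (hw0 : p • w0 = 0) (j : ℕ) {f : P → A} (y : P)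
    (hf : orb w0 f y ∈ charAlg ζ) (hf' : orb w0 f (y + w0) ∈ charAlg ζ) :
    pr ζ w0 p j f (y + w0) = ζ ^ j * pr ζ w0 p j f y := by
  have hp1 : 1 ≤ p := hp.pos
  apply sub_eq_zero.mp
  apply hpA
  rw [mul_sub, pr_spec ζ hp hζp hΦ j (y + w0) hf', mul_left_comm, pr_spec ζ hp hζp hΦ j y hf]
  -- shift the index
  have e : ∀ i, f (y + w0 + i • w0) = f (y + (i + 1) • w0) := fun i => by
    rw [add_assoc, succ_nsmul']
  simp only [e]
  set e0 := (p - 1) * j with he0
  -- `∑_{i<p} ζ^(i e0) g (i+1) = ζ^j ∑_{i<p} ζ^(i e0) g i` for the periodic `g i = f (y + i • w0)`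
  have hper : f (y + p • w0) = f (y + 0 • w0) := by rw [hw0, zero_nsmul]
  have hze : ζ ^ (e0 + j) = 1 := by
    have : e0 + j = p * j := by
      rw [he0]
      have : (p - 1) * j + j = (p - 1 + 1) * j := by ring
      rw [this, Nat.sub_add_cancel hp1]
    rw [this, pow_mul, hζp, one_pow]
  have hstep : ∀ i, ζ ^ (i * e0) = ζ ^ j * ζ ^ ((i + 1) * e0) := fun i => by
    rw [← pow_add]
    have : j + (i + 1) * e0 = i * e0 + (e0 + j) := by ring
    rw [this, pow_add, hze, mul_one]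
  have h1 : ∑ i ∈ range p, ζ ^ (i * e0) * f (y + (i + 1) • w0) =
      ζ ^ j * ∑ i ∈ range p, ζ ^ ((i + 1) * e0) * f (y + (i + 1) • w0) := by
    rw [Finset.mul_sum]
    refine Finset.sum_congr rfl fun i _ => ?_
    rw [hstep i, mul_assoc]
  rw [h1, ← mul_sub]
  have h2 : ∑ i ∈ range p, ζ ^ ((i + 1) * e0) * f (y + (i + 1) • w0) =
      ∑ i ∈ range p, ζ ^ (i * e0) * f (y + i • w0) := by
    have h3 := Finset.sum_range_succ' (fun i => ζ ^ (i * e0) * f (y + i • w0)) p
    have h4 := Finset.sum_range_succ (fun i => ζ ^ (i * e0) * f (y + i • w0)) p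
    rw [h3] at h4
    have h5 : ζ ^ (p * e0) * f (y + p • w0) = ζ ^ (0 * e0) * f (y + 0 • w0) := by
      rw [hper, pow_mul, hζp, one_pow, zero_mul, pow_zero]
    rw [h5] at h4
    exact add_right_cancel h4
  rw [h2, sub_self, mul_zero]

/-- **`η`**: the degree-one piece of a function restricting to the character on `⟨w0⟩`. -/
theorem exists_eta (hp : p.Prime) (hζp : ζ ^ p = 1) (hΦ : ∑ i ∈ range p, ζ ^ i = 0)
    (hpA : ∀ a : A, (p : A) * a = 0 → a = 0) (hw0 : p • w0 = 0) (ξ : P → A)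
    (hξ : ∀ y, orb w0 ξ y ∈ charAlg ζ) (hξ0 : ∀ i, ξ (i • w0) = ζ ^ i) :
    ∃ η : P → A,
      (∀ y, (p : A) * η y = ∑ i ∈ range p, ζ ^ (i * (p - 1)) * ξ (y + i • w0)) ∧
      η 0 = 1 ∧ ∀ y, η (y + w0) = ζ * η y := by
  have hp1 : 1 ≤ p := hp.pos
  refine ⟨pr ζ w0 p 1 ξ, fun y => ?_, ?_, fun y => ?_⟩
  · have := pr_spec ζ hp hζp hΦ 1 y (hξ y)
    simpa only [mul_one] using this
  · apply sub_eq_zero.mp
    apply hpA
    rw [mul_sub, pr_spec ζ hp hζp hΦ 1 0 (hξ 0)]
    have : ∀ i ∈ range p, ζ ^ (i * ((p - 1) * 1)) * ξ (0 + i • w0) = 1 := fun i _ => by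
      rw [zero_add, hξ0, mul_one, ← pow_add]
      have : i * (p - 1) + i = p * i := by
        have : i * (p - 1) + i = i * (p - 1 + 1) := by ring
        rw [this, Nat.sub_add_cancel hp1, mul_comm]
      rw [this, pow_mul, hζp, one_pow]
    rw [Finset.sum_congr rfl this, Finset.sum_const, Finset.card_range, nsmul_eq_mul, mul_one,
      sub_self]
  · have := pr_add ζ hp hζp hΦ hpA hw0 1 y (hξ y) (hξ (y + w0))
    rwa [pow_one] at this

/-- **`η` is a combination of the coefficient functions**: if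
`ξ (y + i • w0) = ∑_k c_k m_k i` with `m_k` in the order, then `(pr_j ξ) y = ∑_k c_k coef_j (m_k)`,
with coefficients depending on the `m_k` only. -/
theorem pr_eq_sum (hp : p.Prime) (hζp : ζ ^ p = 1) (hΦ : ∑ i ∈ range p, ζ ^ i = 0)
    (hpA : ∀ a : A, (p : A) * a = 0 → a = 0) (j : ℕ) {f : P → A} (y : P) {n : ℕ}
    (c : Fin n → A) (m : Fin n → ℕ → A) (hm : ∀ k, m k ∈ charAlg ζ)
    (hrep : ∀ i, f (y + i • w0) = ∑ k, c k * m k i) :
    pr ζ w0 p j f y = ∑ k, c k * coef ζ p j (m k) := by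
  have hf : orb w0 f y ∈ charAlg ζ := by
    have : orb w0 f y = ∑ k, c k • m k := by
      funext i
      rw [Finset.sum_apply]
      simp only [Pi.smul_apply, smul_eq_mul]
      exact hrep i
    rw [this]
    exact Subalgebra.sum_mem _ fun k _ => Subalgebra.smul_mem _ (hm k) _
  apply sub_eq_zero.mp
  apply hpA
  rw [mul_sub, pr_spec ζ hp hζp hΦ j y hf, Finset.mul_sum]
  have h1 : ∀ k ∈ (Finset.univ : Finset (Fin n)), (p : A) * (c k * coef ζ p j (m k)) =
      ∑ i ∈ range p, ζ ^ (i * ((p - 1) * j)) * (c k * m k i) := fun k _ => by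
    rw [mul_left_comm, coef_spec ζ hp hζp hΦ j (hm k), Finset.mul_sum]
    refine Finset.sum_congr rfl fun i _ => ?_
    ring
  rw [Finset.sum_congr rfl h1, Finset.sum_comm]
  have h2 : ∀ i ∈ range p, ζ ^ (i * ((p - 1) * j)) * f (y + i • w0) =
      ∑ k, ζ ^ (i * ((p - 1) * j)) * (c k * m k i) := fun i _ => by
    rw [hrep i, Finset.mul_sum]
  rw [Finset.sum_congr rfl h2, sub_self]

end EtaSec

end Fermat.Agent.GF.T.Eta
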