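/-
GATE-F / S40, node GF-T-ADAPTED, part 1b (helper5): `η` from the MINIMAL integrality hypothesis, and
the bridge "integral Fourier sums ⟹ membership in the order `A[χ]`" (the shape helper57's
`GF/Ord` exports: `∀ f ∈ B, ∀ j, ∃ c, p * c = ∑_k ζ^(-j k) f k`).

* `exists_eta_of_dvd` : `ζ ^ p = 1`, `p` a non-zero-divisor of `A`, `p • w0 = 0`, `ξ : P → A` with
  `ξ (i • w0) = ζ ^ i` and, for every point `y`, `p ∣ ∑_{i<p} ζ^(i (p-1)) ξ (y + i • w0)` (ONLY the first
  Fourier coefficient of the orbit functions) ⟹ `η : P → A` with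
  `p η y = ∑_i ζ^(-i) ξ (y + i • w0)`, `η 0 = 1`, `η (y + w0) = ζ η y`, `η (y + k • w0) = ζ ^ k η y`.
* `mul_apply_eq_sum_fourier` : for ANY `h : ℕ → A` and `i < p`,
  `p h i = ∑_{j<p} ζ^(i j) ∑_{k<p} ζ^(k (p-1) j) h k`;
* `mem_charAlg_of_fourier` : a `p`-periodic `h` all of whose Fourier sums are divisible by `p` lies in
  `charAlg ζ` (so `Eta.exists_eta`, `Eta.pr_add`, `Eta.apply_add_nsmul` apply to it).

Mathlib + `GF/T/Eta` only.
-/
import Mathlib
import Fermat.Agent.GF.T.Eta

set_option autoImplicit false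

namespace Fermat.Agent.GF.T.Eta

open Finset Polynomial

variable {A : Type*} [CommRing A] {p : ℕ} (ζ : A)

/-! ### `η` from the first Fourier coefficient alone -/

section Minimal

variable {P : Type*} [AddCommGroup P] {w0 : P}

/-- the shift identity for the twisted orbit sums. -/
theorem sum_shift (hp : p.Prime) (hζp : ζ ^ p = 1) (hw0 : p • w0 = 0) (j : ℕ) (f : P → A)
    (y : P) :
    ∑ i ∈ range p, ζ ^ (i * ((p - 1) * j)) * f (y + w0 + i • w0) =
      ζ ^ j * ∑ i ∈ range p, ζ ^ (i * ((p - 1) * j)) * f (y + i • w0) := by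
  have hp1 : 1 ≤ p := hp.pos
  have e : ∀ i, f (y + w0 + i • w0) = f (y + (i + 1) • w0) := fun i => by
    rw [add_assoc, succ_nsmul']
  simp only [e]
  set e0 := (p - 1) * j with he0
  have hper : f (y + p • w0) = f (y + 0 • w0) := by rw [hw0, zero_nsmul]
  have hze : ζ ^ (e0 + j) = 1 := by
    have : e0 + j = p * j := by
      rw [he0]
      have : (p - 1) * j + j = (p - 1 + 1) * j := by ring
      rw [this, Nat.sub_add_cancel hp1]
    rw [this, pow_mul, hζp, one_pow]
  have hstep : ∀ i, ζ ^ (i * e0) = ζ ^ j * ζ ^ ((i + 1) * e0) := fun i => by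
    rw [← pow_add]
    have : j + (i + 1) * e0 = i * e0 + (e0 + j) := by ring
    rw [this, pow_add, hze, mul_one]
  have h1 : ∑ i ∈ range p, ζ ^ (i * e0) * f (y + (i + 1) • w0) =
      ζ ^ j * ∑ i ∈ range p, ζ ^ ((i + 1) * e0) * f (y + (i + 1) • w0) := by
    rw [Finset.mul_sum]
    refine Finset.sum_congr rfl fun i _ => ?_
    rw [hstep i, mul_assoc]
  rw [h1]
  congr 1
  have h3 := Finset.sum_range_succ' (fun i => ζ ^ (i * e0) * f (y + i • w0)) p
  have h4 := Finset.sum_range_succ (fun i => ζ ^ (i * e0) * f (y + i • w0)) p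
  rw [h3] at h4
  have h5 : ζ ^ (p * e0) * f (y + p • w0) = ζ ^ (0 * e0) * f (y + 0 • w0) := by
    rw [hper, pow_mul, hζp, one_pow, zero_mul, pow_zero]
  rw [h5] at h4
  exact add_right_cancel h4

/-- **`η` from the divisibility of the first Fourier coefficient of the orbit functions of `ξ`.** -/
theorem exists_eta_of_dvd (hp : p.Prime) (hζp : ζ ^ p = 1)
    (hpA : ∀ a : A, (p : A) * a = 0 → a = 0) (hw0 : p • w0 = 0) (ξ : P → A)
    (hξ : ∀ y : P, ∃ c : A, (p : A) * c = ∑ i ∈ range p, ζ ^ (i * (p - 1)) * ξ (y + i • w0))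
    (hξ0 : ∀ i : ℕ, ξ (i • w0) = ζ ^ i) :
    ∃ η : P → A,
      (∀ y, (p : A) * η y = ∑ i ∈ range p, ζ ^ (i * (p - 1)) * ξ (y + i • w0)) ∧
      η 0 = 1 ∧ (∀ y, η (y + w0) = ζ * η y) ∧ ∀ (k : ℕ) (y : P), η (y + k • w0) = ζ ^ k * η y := by
  have hp1 : 1 ≤ p := hp.pos
  choose η hη using hξ
  have h0 : η 0 = 1 := by
    apply sub_eq_zero.mp
    apply hpA
    rw [mul_sub, hη 0, mul_one]
    have : ∀ i ∈ range p, ζ ^ (i * (p - 1)) * ξ (0 + i • w0) = 1 := fun i _ => by
      rw [zero_add, hξ0, ← pow_add]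
      have : i * (p - 1) + i = p * i := by
        have : i * (p - 1) + i = i * (p - 1 + 1) := by ring
        rw [this, Nat.sub_add_cancel hp1, mul_comm]
      rw [this, pow_mul, hζp, one_pow]
    rw [Finset.sum_congr rfl this, Finset.sum_const, Finset.card_range, nsmul_eq_mul, mul_one,
      sub_self]
  have h1 : ∀ y, η (y + w0) = ζ * η y := fun y => by
    apply sub_eq_zero.mp
    apply hpA
    have hs := sum_shift ζ hp hζp hw0 1 ξ y
    simp only [mul_one, pow_one] at hs
    rw [mul_sub, hη (y + w0), mul_left_comm, hη y, hs, sub_self]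
  refine ⟨η, hη, h0, h1, fun k => ?_⟩
  induction k with
  | zero => intro y; rw [zero_nsmul, add_zero, pow_zero, one_mul]
  | succ k ih =>
    intro y
    rw [succ_nsmul, ← add_assoc, h1, ih, pow_succ]
    ring

end Minimal

/-! ### integral Fourier sums ⟹ membership in the order -/

section Bridge

/-- **Fourier inversion for an arbitrary function**, multiplied by `p`. -/
theorem mul_apply_eq_sum_fourier (hp : p.Prime) (hζp : ζ ^ p = 1)
    (hΦ : ∑ i ∈ range p, ζ ^ i = 0) (h : ℕ → A) (i : ℕ) (hi : i < p) :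
    (p : A) * h i =
      ∑ j ∈ range p, ζ ^ (i * j) * ∑ k ∈ range p, ζ ^ (k * ((p - 1) * j)) * h k := by
  have hp1 : 1 ≤ p := hp.pos
  have h1 : ∀ j ∈ range p, ζ ^ (i * j) * ∑ k ∈ range p, ζ ^ (k * ((p - 1) * j)) * h k =
      ∑ k ∈ range p, ζ ^ (i * j + k * ((p - 1) * j)) * h k := fun j _ => by
    rw [Finset.mul_sum]
    refine Finset.sum_congr rfl fun k _ => ?_
    rw [pow_add]
    ring
  rw [Finset.sum_congr rfl h1, Finset.sum_comm]
  have h2 : ∀ k ∈ range p, ∑ j ∈ range p, ζ ^ (i * j + k * ((p - 1) * j)) * h k =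
      (if k = i then (p : A) else 0) * h k := fun k hk => by
    rw [← Finset.sum_mul]
    congr 1
    have h3 : ∀ j ∈ range p, ζ ^ (i * j + k * ((p - 1) * j)) = ζ ^ (j * (i + k * (p - 1))) :=
      fun j _ => by congr 1; ring
    rw [Finset.sum_congr rfl h3, sum_range_pow_mul ζ hp hζp hΦ]
    have hk' : k < p := Finset.mem_range.mp hk
    have hiff : p ∣ i + k * (p - 1) ↔ k = i := by
      have e1 : i + k * (p - 1) + k = i + k * p := by
        have : k * (p - 1) + k = k * p := by
          rw [← Nat.mul_succ, Nat.succ_eq_add_one, Nat.sub_add_cancel hp1]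
        omega
      constructor
      · intro hd
        have h5 : (i + k * p) % p = i % p := Nat.add_mul_mod_self_right _ _ _
        have h6 : (i + k * (p - 1) + k) % p = k % p := by
          rw [Nat.add_mod, Nat.mod_eq_zero_of_dvd hd, zero_add, Nat.mod_mod]
        rw [e1, h5, Nat.mod_eq_of_lt hi, Nat.mod_eq_of_lt hk'] at h6
        exact h6.symm
      · rintro rfl
        refine ⟨k, ?_⟩
        have : k + k * (p - 1) = k * (p - 1 + 1) := by ring
        rw [this, Nat.sub_add_cancel hp1, mul_comm]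
    simp only [hiff]
  rw [Finset.sum_congr rfl h2, Finset.sum_eq_single i]
  · rw [if_pos rfl]
  · intro k _ hki
    rw [if_neg hki, zero_mul]
  · intro hni
    exact absurd (Finset.mem_range.mpr hi) hni

/-- a `p`-periodic function with integral Fourier coefficients lies in the order `A[χ]`. -/
theorem mem_charAlg_of_fourier (hp : p.Prime) (hζp : ζ ^ p = 1)
    (hΦ : ∑ i ∈ range p, ζ ^ i = 0) (hpA : ∀ a : A, (p : A) * a = 0 → a = 0) (h : ℕ → A)
    (hper : ∀ i, h (i + p) = h i)
    (hdiv : ∀ j, j < p → ∃ c : A, (p : A) * c = ∑ k ∈ range p, ζ ^ (k * ((p - 1) * j)) * h k) :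
    h ∈ charAlg ζ := by
  classical
  have hdiv' : ∀ j : ℕ, ∃ c : A, j < p →
      (p : A) * c = ∑ k ∈ range p, ζ ^ (k * ((p - 1) * j)) * h k := fun j => by
    by_cases hj : j < p
    · obtain ⟨c, hc⟩ := hdiv j hj
      exact ⟨c, fun _ => hc⟩
    · exact ⟨0, fun h' => absurd h' hj⟩
  choose c hc using hdiv'
  rw [mem_charAlg_iff]
  refine ⟨∑ j ∈ range p, Polynomial.C (c j) * Polynomial.X ^ j, ?_⟩
  -- the formula on `i < p`
  have hlt : ∀ i, i < p → h i = ∑ j ∈ range p, c j * (ζ ^ i) ^ j := fun i hi => by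
    apply sub_eq_zero.mp
    apply hpA
    rw [mul_sub, mul_apply_eq_sum_fourier ζ hp hζp hΦ h i hi, Finset.mul_sum, ← Finset.sum_sub_distrib]
    refine Finset.sum_eq_zero fun j hj => ?_
    rw [← hc j (Finset.mem_range.mp hj), ← pow_mul]
    ring
  -- periodicity of both sides
  have hmod : ∀ i, h i = h (i % p) := by
    intro i
    induction i using Nat.strong_induction_on with
    | _ i ih =>
      by_cases hi : i < p
      · rw [Nat.mod_eq_of_lt hi]
      · rw [not_lt] at hi
        obtain ⟨m, rfl⟩ := Nat.exists_eq_add_of_le hi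
        rw [add_comm p m, hper, ih m (by have := hp.pos; omega), Nat.add_mod_right]
  intro i
  rw [hmod i, hlt (i % p) (Nat.mod_lt _ hp.pos), Polynomial.eval_finsetSum]
  refine Finset.sum_congr rfl fun j _ => ?_
  rw [Polynomial.eval_mul, Polynomial.eval_C, Polynomial.eval_pow, Polynomial.eval_X,
    ← pow_mod_of_pow_eq_one ζ hζp i]

end Bridge

end Fermat.Agent.GF.T.Eta
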